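import Fermat.Agent.ShiftedPrimeRecurrence.Inequality
import Mathlib.MeasureTheory.Integral.Bochner.Set
import Mathlib.Dynamics.Ergodic.MeasurePreserving

/-!
# Khintchine's recurrence theorem along the numbers `p - s`

For a measure preserving map of a probability space and a measurable set `A`, the largest
`μ (A ∩ T⁻ʰ A)` over `h = p - s` is at least `μ (A) ^ 2`, up to `ε`.
-/

set_option autoImplicit false

noncomputable section

namespace FA.ShiftedPrimeRecurrence

open Finset MeasureTheory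
open scoped Real ComplexConjugate

variable {Ω : Type*} [MeasurableSpace Ω] {μ : Measure Ω} [IsProbabilityMeasure μ] {T : Ω → Ω}

/-- The indicator of the return time set. -/
def visit (A : Set Ω) (T : Ω → Ω) (n : ℕ) : Ω → ℝ := (T^[n] ⁻¹' A).indicator fun _ => (1 : ℝ)

omit [MeasurableSpace Ω] in
theorem visit_mul_visit (A : Set Ω) (T : Ω → Ω) (n h : ℕ) (ω : Ω) :
    visit A T n ω * visit A T (n + h) ω = visit (A ∩ T^[h] ⁻¹' A) T n ω := by
  classical
  simp only [visit]
  rw [Set.indicator_apply, Set.indicator_apply, Set.indicator_apply]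
  simp only [Set.mem_preimage, Set.mem_inter_iff, ← Function.iterate_add_apply, add_comm n h]
  split_ifs <;> simp_all

theorem integrable_visit (hT : Measurable T) {A : Set Ω} (hA : MeasurableSet A) (n : ℕ) :
    Integrable (visit A T n) μ :=
  (integrable_const (1 : ℝ)).indicator (hT.iterate n hA)

omit [IsProbabilityMeasure μ] in
theorem integral_visit (hT : MeasurePreserving T μ μ) {A : Set Ω} (hA : MeasurableSet A) (n : ℕ) :
    ∫ ω, visit A T n ω ∂μ = μ.real A := by
  rw [visit, integral_indicator_const _ (hT.measurable.iterate n hA), smul_eq_mul, mul_one,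
    Measure.real, Measure.real, (hT.iterate n).measure_preimage hA.nullMeasurableSet]

/-- **Khintchine's recurrence along `p - s`.** -/
theorem exists_return {s : ℤ} (hs : s = 1 ∨ s = -1) (hT : MeasurePreserving T μ μ) {A : Set Ω}
    (hA : MeasurableSet A) {δ : ℝ} (hδ : 0 < δ) (P : ℕ) :
    ∃ p h : ℕ, p.Prime ∧ P < p ∧ (h : ℤ) = p - s ∧
      μ.real A ^ 2 - δ ≤ μ.real (A ∩ T^[h] ⁻¹' A) := by
  obtain ⟨H, c, hH, hc, hc1, hcos⟩ := exists_cosine_gt hs P (show 0 < δ / 2 by positivity)
  by_contra hne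
  obtain ⟨m, hm⟩ : ∃ m, m = μ.real A := ⟨_, rfl⟩
  have hall : ∀ h ∈ H, μ.real (A ∩ T^[h] ⁻¹' A) ≤ m ^ 2 - δ := fun h hh => by
    obtain ⟨-, p, hp, hP, e⟩ := hH h hh
    exact (lt_of_not_ge fun hge => hne ⟨p, h, hp, hP, e, hm ▸ hge⟩).le
  obtain ⟨K, hK⟩ : ∃ K, K = ⌈2 / δ⌉₊ + 1 := ⟨_, rfl⟩
  obtain ⟨N, hN⟩ : ∃ N, N = (H.sup id + 1) * K := ⟨_, rfl⟩
  obtain ⟨B, hB⟩ : ∃ B, B = (N : ℝ) + H.sup id + 1 := ⟨_, rfl⟩
  have hK1 : (1 : ℝ) ≤ K := Nat.one_le_cast.2 (by omega)
  have hm1 : m ≤ 1 := hm ▸ measureReal_le_one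
  have hm0 : 0 ≤ m := hm ▸ measureReal_nonneg
  classical
  have hpt : ∀ ω, (1 + δ / 2) * (2 * (N * m) * (∑ n ∈ range N, visit A T n ω) - (N * m) ^ 2) ≤
      B * (δ / 2 * ∑ n ∈ range N, visit A T n ω +
        ∑ h ∈ H, c h * ∑ n ∈ range (N - h), visit (A ∩ T^[h] ⁻¹' A) T n ω) := by
    intro ω
    have h1 := weighted_vanDerCorput hc1 hcos (fun n => (visit A T n ω : ℂ)) N
    rw [← Complex.ofReal_sum, Complex.norm_real, Real.norm_eq_abs, sq_abs, ← hB] at h1
    refine le_trans (mul_le_mul_of_nonneg_left ?_ (by linarith)) (h1.trans (le_of_eq ?_))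
    · nlinarith [sq_nonneg ((∑ n ∈ range N, visit A T n ω) - N * m)]
    · congr 2
      · refine congrArg _ (sum_congr rfl fun n _ => ?_)
        rw [Complex.norm_real, Real.norm_eq_abs, sq_abs, visit, Set.indicator_apply]
        split_ifs <;> norm_num
      · refine sum_congr rfl fun h _ => ?_
        rw [Complex.re_sum]
        refine congrArg _ (sum_congr rfl fun n _ => ?_)
        rw [Complex.conj_ofReal, ← Complex.ofReal_mul, Complex.ofReal_re, visit_mul_visit]
  have hTm := hT.measurable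
  have hAh : ∀ h, MeasurableSet (A ∩ T^[h] ⁻¹' A) := fun h => hA.inter (hTm.iterate h hA)
  have hS : Integrable (fun ω => ∑ n ∈ range N, visit A T n ω) μ :=
    integrable_finsetSum _ fun n _ => integrable_visit hTm hA n
  have hC : ∀ h ∈ H, Integrable
      (fun ω => c h * ∑ n ∈ range (N - h), visit (A ∩ T^[h] ⁻¹' A) T n ω) μ := fun h _ =>
    (integrable_finsetSum _ fun n _ => integrable_visit hTm (hAh h) n).const_mul _
  have hint := integral_mono
    (((hS.const_mul (2 * (N * m))).sub (integrable_const ((N * m) ^ 2))).const_mul (1 + δ / 2))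
    (((hS.const_mul (δ / 2)).add (integrable_finsetSum H hC)).const_mul B) hpt
  simp only [Pi.sub_apply, Pi.add_apply] at hint
  simp only [integral_const_mul, integral_sub (hS.const_mul (2 * (N * m))) (integrable_const _),
    integral_add (hS.const_mul (δ / 2)) (integrable_finsetSum H hC), integral_const,
    probReal_univ, one_smul, integral_finsetSum H hC,
    integral_finsetSum (range N) (fun n _ => integrable_visit (μ := μ) hTm hA n),
    integral_visit hT hA, ← hm, sum_const, card_range, nsmul_eq_mul] at hint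
  have hsum : ∑ h ∈ H, ∫ ω, c h * ∑ n ∈ range (N - h), visit (A ∩ T^[h] ⁻¹' A) T n ω ∂μ ≤
      N * (m ^ 2 - δ) := by
    refine (sum_le_sum (g := fun h => c h * ((N : ℝ) * (m ^ 2 - δ))) fun h hh => ?_).trans
      (le_of_eq (by rw [← sum_mul, hc1, one_mul]))
    rw [integral_const_mul, integral_finsetSum _
      fun n _ => integrable_visit hTm (hAh h) n]
    refine mul_le_mul_of_nonneg_left ?_ (hc h)
    simp only [integral_visit hT (hAh h), sum_const, card_range, nsmul_eq_mul]
    refine mul_le_mul ?_ (hall h hh) measureReal_nonneg (Nat.cast_nonneg _)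
    exact_mod_cast Nat.sub_le N h
  simp only [integral_const_mul] at hsum
  have hN0 : 0 < N := hN ▸ Nat.mul_pos (Nat.succ_pos _) (by omega)
  have hN0' : (0 : ℝ) < N := Nat.cast_pos.2 hN0
  have hB0 : 0 ≤ B := hB ▸ by positivity
  have hBK : B * K = N * (K + 1) := by
    rw [hB, hN]
    push_cast
    ring
  have key : (N : ℝ) * m ^ 2 ≤ B * (m ^ 2 - δ / 2) := by
    refine le_of_mul_le_mul_left ?_ hN0'
    nlinarith [mul_le_mul_of_nonneg_left hsum hB0,
      mul_nonneg (mul_nonneg hB0 hN0'.le) (mul_nonneg hδ.le (sub_nonneg.2 hm1))]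
  have hKd : 2 < δ * K := by
    rw [mul_comm, ← div_lt_iff₀ hδ, hK]
    push_cast
    linarith [Nat.le_ceil (2 / δ)]
  have k2 := mul_le_mul_of_nonneg_right key (Nat.cast_nonneg (α := ℝ) K)
  rw [show B * (m ^ 2 - δ / 2) * K = B * K * (m ^ 2 - δ / 2) by ring, hBK] at k2
  have k3 : m ^ 2 * K ≤ (K + 1) * (m ^ 2 - δ / 2) :=
    le_of_mul_le_mul_left (by linarith) hN0'
  nlinarith

end FA.ShiftedPrimeRecurrence
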