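import Fermat.Agent.ShiftedPrimeRecurrence.Inequality
import Fermat.Agent.Equidistribution.Criterion

/-!
# Van der Corput's difference theorem along the numbers `p - s`
-/

set_option autoImplicit false

noncomputable section

namespace FA.ShiftedPrimeRecurrence

open Finset Filter Topology
open FA.ThreePrimes (eAdd)
open FA.Equidist (avg ExpMeanZero)
open scoped Real ComplexConjugate

/-- **The difference theorem for bounded sequences.** -/
theorem tendsto_avg_of_shifted_correlation {s : ℤ} (hs : s = 1 ∨ s = -1) {z : ℕ → ℂ}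
    (hz : ∀ n, ‖z n‖ ≤ 1) (P : ℕ)
    (h : ∀ p d : ℕ, p.Prime → P < p → (d : ℤ) = p - s →
      Tendsto (fun N => avg (range N) fun n => z n * conj (z (n + d))) atTop (𝓝 0)) :
    Tendsto (fun N => avg (range N) z) atTop (𝓝 0) := by
  refine Metric.tendsto_atTop.2 fun e he => ?_
  obtain ⟨ε, hε⟩ : ∃ ε, ε = (e / 3) ^ 2 := ⟨_, rfl⟩
  have hε0 : 0 < ε := hε ▸ by positivity
  obtain ⟨H, c, hH, hc, hc1, hcos⟩ := exists_cosine_gt hs P hε0
  have hev : ∀ᶠ N : ℕ in atTop, ∀ d ∈ H,
      ‖avg (range (N - d)) fun n => z n * conj (z (n + d))‖ ≤ ε := by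
    refine (eventually_all_finset H).2 fun d hd => ?_
    obtain ⟨-, p, hp, hP, e'⟩ := hH d hd
    exact (tendsto_sub_atTop_nat d).eventually ((tendsto_zero_iff_norm_tendsto_zero.1
      (h p d hp hP e')).eventually_le_const hε0)
  obtain ⟨N₀, hN₀⟩ := eventually_atTop.1 (hev.and (eventually_ge_atTop (H.sup id + 1)))
  refine ⟨N₀, fun N hN => ?_⟩
  obtain ⟨hcorr, hbig⟩ := hN₀ N hN
  have hN0 : (0 : ℝ) < N := Nat.cast_pos.2 (by omega)
  rw [dist_zero_right, avg, norm_div, Complex.norm_natCast, card_range, div_lt_iff₀ hN0]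
  have h1 := weighted_vanDerCorput hc1 hcos z N
  have h2 : ∑ n ∈ range N, ‖z n‖ ^ 2 ≤ N := by
    refine (sum_le_card_nsmul _ _ 1 fun n _ => pow_le_one₀ (norm_nonneg _) (hz n)).trans_eq ?_
    simp
  have h3 : ∑ d ∈ H, c d * (∑ n ∈ range (N - d), z n * conj (z (n + d))).re ≤ N * ε := by
    refine (sum_le_sum (g := fun d => c d * (N * ε)) fun d hd => ?_).trans
      (le_of_eq (by rw [← sum_mul, hc1, one_mul]))
    refine mul_le_mul_of_nonneg_left ((Complex.re_le_norm _).trans ?_) (hc d)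
    have h4 := hcorr d hd
    rw [avg, norm_div, Complex.norm_natCast, card_range] at h4
    rcases Nat.eq_zero_or_pos (N - d) with h0 | h0
    · rw [h0, sum_range_zero, norm_zero]
      positivity
    · rw [div_le_iff₀ (Nat.cast_pos.2 h0)] at h4
      refine h4.trans ?_
      rw [mul_comm]
      exact mul_le_mul_of_nonneg_right (Nat.cast_le.2 (Nat.sub_le N d)) hε0.le
  have h5 : ((N : ℝ) + H.sup id + 1) ≤ 2 * N := by
    have : ((H.sup id + 1 : ℕ) : ℝ) ≤ N := Nat.cast_le.2 hbig
    push_cast at this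
    linarith
  have h6 : ‖∑ n ∈ range N, z n‖ ^ 2 ≤ (2 * N) * (ε * N + N * ε) := by
    refine (le_mul_of_one_le_left (sq_nonneg _) (by linarith)).trans (h1.trans ?_)
    refine (mul_le_mul_of_nonneg_left (add_le_add (mul_le_mul_of_nonneg_left h2 hε0.le) h3)
      (by positivity)).trans ?_
    exact mul_le_mul_of_nonneg_right h5 (by positivity)
  refine lt_of_pow_lt_pow_left₀ 2 (by positivity) (h6.trans_lt ?_)
  rw [hε]
  nlinarith [mul_pos (pow_pos he 2) (pow_pos hN0 2)]

/-- **The difference theorem for equidistribution.** -/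
theorem expMeanZero_of_shifted_differences {s : ℤ} (hs : s = 1 ∨ s = -1) {x : ℕ → ℝ} (P : ℕ)
    (h : ∀ p d : ℕ, p.Prime → P < p → (d : ℤ) = p - s →
      ExpMeanZero range fun n => x (n + d) - x n) :
    ExpMeanZero range x := fun k hk => by
  refine tendsto_avg_of_shifted_correlation hs (fun n => (ThreePrimes.norm_eAdd _).le) P
    fun p d hp hP e => (h p d hp hP e (-k) (neg_ne_zero.2 hk)).congr fun N => ?_
  refine congrArg _ (funext fun n => ?_)
  rw [ThreePrimes.conj_eAdd, ← ThreePrimes.eAdd_add]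
  push_cast
  ring_nf

end FA.ShiftedPrimeRecurrence
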