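import Fermat.Agent.ShiftedPrimeDifferences.Main

/-!
# Van der Corput's inequality along the numbers `p - s`

A cosine polynomial that is at least `-ε`, with frequencies `h ∈ H` and weights of sum `1`, bounds
`‖∑_{n < N} z n‖ ^ 2` by the correlations of `z` at the distances `h`. Those of the numbers
`p - s`, `s = ±1`, may be taken with all primes beyond a given bound.
-/

set_option autoImplicit false

noncomputable section

namespace FA.ShiftedPrimeRecurrence

open Finset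
open FA.ThreePrimes (eAdd)
open FA.ShiftedPrimeDifferences (re_eAdd)
open scoped Real ComplexConjugate

/-- The average of a cosine over the translates `θ + j / m`. -/
theorem sum_cos_translates {m : ℕ} (hm : 0 < m) (h : ℕ) (θ : ℝ) :
    ∑ j ∈ range m, Real.cos (2 * π * (h * (θ + j / m))) =
      if m ∣ h then m * Real.cos (2 * π * (h * θ)) else 0 := by
  have e : ∀ j : ℕ, eAdd ((h : ℝ) * (θ + j / m)) =
      eAdd ((h : ℝ) * θ) * eAdd (((h : ℤ) : ℝ) * j / m) := fun j => by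
    rw [← ThreePrimes.eAdd_add]
    push_cast
    ring_nf
  simp only [← re_eAdd, ← Complex.re_sum, e, ← mul_sum]
  rw [ThreePrimes.sum_eAdd_grid hm]
  by_cases hd : m ∣ h
  · rw [if_pos (Int.natCast_dvd_natCast.2 hd), if_pos hd, mul_comm, ← Complex.ofReal_natCast,
      Complex.re_ofReal_mul]
  · rw [if_neg (mt Int.natCast_dvd_natCast.1 hd), if_neg hd, mul_zero, Complex.zero_re]

/-- **Cosine polynomials on `p - s` with large primes only.** -/
theorem exists_cosine_gt {s : ℤ} (hs : s = 1 ∨ s = -1) (P : ℕ) {ε : ℝ} (hε : 0 < ε) :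
    ∃ (H : Finset ℕ) (c : ℕ → ℝ),
      (∀ h ∈ H, 0 < h ∧ ∃ p : ℕ, p.Prime ∧ P < p ∧ (h : ℤ) = p - s) ∧ (∀ h, 0 ≤ c h) ∧
      ∑ h ∈ H, c h = 1 ∧ ∀ θ : ℝ, -ε ≤ ∑ h ∈ H, c h * Real.cos (2 * π * (h * θ)) := by
  obtain ⟨m, hm⟩ : ∃ m, m = P + 2 := ⟨_, rfl⟩
  have hm0 : 0 < m := by omega
  have hm1 : (1 : ℝ) ≤ m := Nat.one_le_cast.2 hm0
  obtain ⟨η, hη⟩ : ∃ η, η = min ε 1 / (2 * (m : ℝ)) := ⟨_, rfl⟩
  have hη0 : 0 < η := hη ▸ div_pos (lt_min hε one_pos) (by positivity)
  have hη2 : η * (2 * m) = min ε 1 := by rw [hη, div_mul_cancel₀ _ (by positivity)]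
  obtain ⟨H, c, hH, hc, hc1, hcos⟩ := ShiftedPrimeDifferences.exists_cosine hs hη0
  obtain ⟨S, hS⟩ : ∃ S : ℝ → ℝ,
      S = fun θ => ∑ h ∈ H, c h * Real.cos (2 * π * (h * θ)) := ⟨_, rfl⟩
  have hsplit : ∀ θ : ℝ, ∑ j ∈ range m, S (θ + j / m) =
      m * ∑ h ∈ H.filter (m ∣ ·), c h * Real.cos (2 * π * (h * θ)) := fun θ => by
    simp only [hS]
    rw [sum_comm, sum_filter, mul_sum]
    refine sum_congr rfl fun h _ => ?_
    rw [← mul_sum, sum_cos_translates hm0]
    split_ifs <;> ring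
  have hlow : ∀ θ : ℝ, -η ≤ ∑ h ∈ H.filter (m ∣ ·), c h * Real.cos (2 * π * (h * θ)) := fun θ => by
    refine le_of_mul_le_mul_left ?_ (show (0 : ℝ) < m by linarith)
    rw [← hsplit]
    refine le_trans (le_of_eq ?_) (card_nsmul_le_sum _ _ (-η) fun j _ => hS ▸ hcos _)
    rw [card_range, nsmul_eq_mul]
  have hL : 1 / (2 * (m : ℝ)) ≤ ∑ h ∈ H.filter (m ∣ ·), c h := by
    have h1 := hsplit 0
    simp only [mul_zero, Real.cos_zero, mul_one] at h1
    have h2 : S ((0 : ℝ) + (0 : ℕ) / m) = 1 := by simp [hS, hc1]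
    have h3 := card_nsmul_le_sum ((range m).erase 0) (fun j : ℕ => S ((0 : ℝ) + j / m)) (-η)
      (fun j _ => hS ▸ hcos _)
    rw [card_erase_of_mem (mem_range.2 hm0), card_range, nsmul_eq_mul,
      Nat.cast_sub (Nat.succ_le_of_lt hm0), Nat.cast_one] at h3
    rw [← add_sum_erase _ _ (mem_range.2 hm0), h2] at h1
    rw [div_le_iff₀ (by positivity)]
    nlinarith [min_le_right ε 1]
  have hLpos : 0 < ∑ h ∈ H.filter (m ∣ ·), c h := lt_of_lt_of_le (by positivity) hL
  refine ⟨H.filter (m ∣ ·), fun h => c h / ∑ i ∈ H.filter (m ∣ ·), c i, fun h hh => ?_,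
    fun h => div_nonneg (hc h) hLpos.le, ?_, fun θ => ?_⟩
  · rw [mem_filter] at hh
    obtain ⟨h0, p, hp, e⟩ := hH h hh.1
    refine ⟨h0, p, hp, ?_, e⟩
    have := Nat.le_of_dvd h0 hh.2
    rcases hs with rfl | rfl <;> omega
  · rw [← sum_div, div_self hLpos.ne']
  · simp only [div_mul_eq_mul_div, ← sum_div]
    rw [le_div_iff₀ hLpos]
    have h4 := mul_le_mul_of_nonneg_left hL hε.le
    have h5 : η ≤ ε * (1 / (2 * (m : ℝ))) := by
      rw [mul_one_div, le_div_iff₀ (by positivity), hη2]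
      exact min_le_left _ _
    linarith [hlow θ]

/-- The correlation at distance `h`, seen on the grid `k / M`. -/
theorem sum_grid_shift (z : ℕ → ℂ) {N h M : ℕ} (hM : N + h < M) :
    ∑ k ∈ range M, ‖∑ n ∈ range N, z n * eAdd ((n : ℝ) * k / M)‖ ^ 2 *
        Real.cos (2 * π * (h * (k / M))) =
      M * (∑ n ∈ range (N - h), z n * conj (z (n + h))).re := by
  have hM0 : 0 < M := by omega
  have e : ∀ k : ℕ, ((‖∑ n ∈ range N, z n * eAdd ((n : ℝ) * k / M)‖ ^ 2 : ℝ) : ℂ) *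
      eAdd ((h : ℝ) * (k / M)) = ∑ i ∈ range N, ∑ j ∈ range N,
        z i * conj (z j) * eAdd ((((i + h : ℕ) : ℤ) - j : ℤ) * k / M) := by
    intro k
    rw [Complex.ofReal_pow, ← Complex.mul_conj', map_sum, sum_mul_sum, sum_mul]
    refine sum_congr rfl fun i _ => ?_
    rw [sum_mul]
    refine sum_congr rfl fun j _ => ?_
    rw [map_mul, ThreePrimes.conj_eAdd, mul_mul_mul_comm, mul_assoc, ← ThreePrimes.eAdd_add,
      ← ThreePrimes.eAdd_add]
    congr 2
    push_cast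
    ring
  have key : ∑ k ∈ range M, ((‖∑ n ∈ range N, z n * eAdd ((n : ℝ) * k / M)‖ ^ 2 : ℝ) : ℂ) *
      eAdd ((h : ℝ) * (k / M)) = (M : ℂ) * ∑ n ∈ range (N - h), z n * conj (z (n + h)) := by
    simp only [e]
    rw [sum_comm, mul_sum]
    have inner : ∀ i ∈ range N, ∑ k ∈ range M, ∑ j ∈ range N,
        z i * conj (z j) * eAdd ((((i + h : ℕ) : ℤ) - j : ℤ) * k / M) =
          if i + h ∈ range N then (M : ℂ) * (z i * conj (z (i + h))) else 0 := by
      intro i hi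
      rw [sum_comm]
      simp only [← mul_sum]
      rw [← sum_ite_eq (range N) (i + h) (fun j => (M : ℂ) * (z i * conj (z j)))]
      refine sum_congr rfl fun j hj => ?_
      rw [ThreePrimes.sum_eAdd_grid hM0]
      rw [mem_range] at hi hj
      by_cases hij : i + h = j
      · rw [if_pos hij, hij, sub_self, if_pos (dvd_zero _)]
        ring
      · rw [if_neg hij, if_neg, mul_zero]
        intro hd
        have := Int.eq_zero_of_abs_lt_dvd hd (abs_lt.2 ⟨by omega, by omega⟩)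
        omega
    rw [sum_congr rfl inner, ← sum_filter]
    refine sum_congr ?_ fun n _ => rfl
    ext n
    simp only [mem_filter, mem_range]
    omega
  have := congrArg Complex.re key
  rw [Complex.re_sum] at this
  simp only [Complex.re_ofReal_mul, re_eAdd] at this
  rwa [← Complex.ofReal_natCast, Complex.re_ofReal_mul] at this

/-- **The weighted inequality of van der Corput.** -/
theorem weighted_vanDerCorput {H : Finset ℕ} {c : ℕ → ℝ} {ε : ℝ} (hc1 : ∑ h ∈ H, c h = 1)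
    (hcos : ∀ θ : ℝ, -ε ≤ ∑ h ∈ H, c h * Real.cos (2 * π * (h * θ))) (z : ℕ → ℂ) (N : ℕ) :
    (1 + ε) * ‖∑ n ∈ range N, z n‖ ^ 2 ≤ ((N : ℝ) + H.sup id + 1) *
      (ε * ∑ n ∈ range N, ‖z n‖ ^ 2 +
        ∑ h ∈ H, c h * (∑ n ∈ range (N - h), z n * conj (z (n + h))).re) := by
  obtain ⟨M, hM⟩ : ∃ M, M = N + H.sup id + 1 := ⟨_, rfl⟩
  obtain ⟨F, hF⟩ : ∃ F : ℕ → ℝ,
      F = fun k : ℕ => ‖∑ n ∈ range N, z n * eAdd ((n : ℝ) * k / M)‖ ^ 2 := ⟨_, rfl⟩
  have h0 : ∑ k ∈ range M, F k = M * ∑ n ∈ range N, ‖z n‖ ^ 2 := by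
    have h := sum_grid_shift z (N := N) (h := 0) (M := M) (by omega)
    simp only [Nat.cast_zero, zero_mul, mul_zero, Real.cos_zero, mul_one, add_zero,
      Nat.sub_zero] at h
    rw [hF, h, Complex.re_sum]
    refine congrArg _ (sum_congr rfl fun n _ => ?_)
    rw [Complex.mul_conj', ← Complex.ofReal_pow, Complex.ofReal_re]
  have hH : ∀ h ∈ H, ∑ k ∈ range M, F k * Real.cos (2 * π * (h * (k / M))) =
      M * (∑ n ∈ range (N - h), z n * conj (z (n + h))).re := fun h hh => by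
    rw [hF]
    exact sum_grid_shift z (by have : h ≤ H.sup id := le_sup (f := id) hh; omega)
  have hbig : (1 + ε) * F 0 ≤ ∑ k ∈ range M, F k *
      ((∑ h ∈ H, c h * Real.cos (2 * π * (h * ((k : ℕ) / (M : ℝ))))) + ε) := by
    refine le_trans (le_of_eq ?_)
      (single_le_sum (fun k _ => ?_) (mem_range.2 (show 0 < M by omega)))
    · simp only [Nat.cast_zero, zero_div, mul_zero, Real.cos_zero, mul_one, hc1]
      ring
    · refine mul_nonneg (by rw [hF]; exact sq_nonneg _) ?_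
      linarith [hcos ((k : ℕ) / (M : ℝ))]
  have hT : ∑ k ∈ range M, F k * ∑ h ∈ H, c h * Real.cos (2 * π * (h * (k / M))) =
      M * ∑ h ∈ H, c h * (∑ n ∈ range (N - h), z n * conj (z (n + h))).re := by
    simp only [mul_sum]
    rw [sum_comm]
    refine sum_congr rfl fun h hh => ?_
    rw [mul_left_comm, ← hH h hh, mul_sum]
    exact sum_congr rfl fun k _ => by ring
  simp only [mul_add, sum_add_distrib, ← sum_mul, h0, hT] at hbig
  rw [show ((N : ℝ) + (H.sup id : ℕ) + 1) = (M : ℝ) by rw [hM]; push_cast; ring]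
  have hfirst : F 0 = ‖∑ n ∈ range N, z n‖ ^ 2 := by simp [hF, ThreePrimes.eAdd_zero]
  rw [hfirst] at hbig
  nlinarith

end FA.ShiftedPrimeRecurrence
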